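import Fermat.Agent.S37.H817.GalValue

/-!
# [GAL] the action of the inertia group on an integral q-series

For `τ` in the inertia group of the valuation subring `A ⊆ L`:
* `inertiaRes τ hτ : A →+* A`, the restriction of `τ` to `A`, with `residue ∘ inertiaRes = residue`;
* `IntElt.conj`: coefficientwise conjugate of an `IntElt`, with the same reduction.
-/

set_option autoImplicit false
set_option synthInstance.maxHeartbeats 400000

noncomputable section

namespace Fermat.Agent.S37.H817

open ModularCurve ValuationSubring AlgebraicCurve HahnSeries Fermat.Agent.S37.Core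

section inertia

variable {L : Type*} [Field L] (K : Type*) [Field K] [Algebra K L] {A : ValuationSubring L}

theorem mem_of_mem_inertiaSubgroupIn {τ : L ≃ₐ[K] L} (hτ : τ ∈ A.inertiaSubgroupIn K) (x : A) :
    τ (x : L) ∈ A := by
  obtain ⟨t, -, rfl⟩ := hτ
  exact (t • x : A).2

theorem residue_of_mem_inertiaSubgroupIn {τ : L ≃ₐ[K] L} (hτ : τ ∈ A.inertiaSubgroupIn K)
    (x : A) :
    IsLocalRing.residue A ⟨τ (x : L), mem_of_mem_inertiaSubgroupIn K hτ x⟩
      = IsLocalRing.residue A x := by
  obtain ⟨t, ht, rfl⟩ := hτ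
  have h1 : MulSemiringAction.toRingAut (A.decompositionSubgroup K)
      (IsLocalRing.ResidueField A) t = 1 := MonoidHom.mem_ker.mp ht
  have h2 : t • (IsLocalRing.residue A x) = IsLocalRing.residue A x := by
    have := congrArg (fun e : RingAut (IsLocalRing.ResidueField A) => e (IsLocalRing.residue A x)) h1
    exact this
  exact h2

/-- restriction of an inertia element to the valuation ring -/
def inertiaRes {τ : L ≃ₐ[K] L} (hτ : τ ∈ A.inertiaSubgroupIn K) : A →+* A where
  toFun x := ⟨τ (x : L), mem_of_mem_inertiaSubgroupIn K hτ x⟩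
  map_one' := Subtype.ext (by simp)
  map_mul' x y := Subtype.ext (by simp)
  map_zero' := Subtype.ext (by simp)
  map_add' x y := Subtype.ext (by simp)

@[simp] theorem coe_inertiaRes {τ : L ≃ₐ[K] L} (hτ : τ ∈ A.inertiaSubgroupIn K) (x : A) :
    ((inertiaRes K hτ x : A) : L) = τ (x : L) := rfl

theorem residue_inertiaRes {τ : L ≃ₐ[K] L} (hτ : τ ∈ A.inertiaSubgroupIn K) (x : A) :
    IsLocalRing.residue A (inertiaRes K hτ x) = IsLocalRing.residue A x :=
  residue_of_mem_inertiaSubgroupIn K hτ x

theorem residue_comp_inertiaRes {τ : L ≃ₐ[K] L} (hτ : τ ∈ A.inertiaSubgroupIn K) :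
    (IsLocalRing.residue A).comp (inertiaRes K hτ) = IsLocalRing.residue A :=
  RingHom.ext fun x => residue_inertiaRes K hτ x

theorem subtype_comp_inertiaRes {τ : L ≃ₐ[K] L} (hτ : τ ∈ A.inertiaSubgroupIn K) :
    A.subtype.comp (inertiaRes K hτ) = (τ : L →+* L).comp A.subtype :=
  RingHom.ext fun _ => rfl

end inertia

end Fermat.Agent.S37.H817
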