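import Fermat.Agent.S37.H817.IdemLift

/-!
# Connectedness of the special fibre from a Čech torsion bound (abstract form)

`R` is a local ring with maximal ideal `(w)`, `Bf`, `Bi` are two `R`-algebras ("affine charts")
mapping injectively to a ring `M` ("the overlap"), with `Bf ∩ Bi = R` inside `M`, and such that the
`w`-torsion of `M / (Bf + Bi)` is bounded.  Then every pair of compatible idempotents of
`Bf / w`, `Bi / w` is trivial.
-/

set_option autoImplicit false

namespace Fermat.Agent.S37.H817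

/-- **Abstract connectedness of the special fibre.**
Everything is stated with ring homomorphisms so that no instances are required. -/
theorem idem_trivial_of_cech
    {R Bf Bi M : Type*} [CommRing R] [CommRing Bf] [CommRing Bi] [CommRing M]
    (ιf : R →+* Bf) (ιi : R →+* Bi) (φf : Bf →+* M) (φi : Bi →+* M)
    (hcomm : ∀ r : R, φf (ιf r) = φi (ιi r))
    (hφi : Function.Injective φi)
    (w : R)
    (hmax : ∀ r : R, ¬ IsUnit r → w ∣ r)
    (hone : ¬ IsUnit (ιf w))
    (hinter : ∀ (a : Bf) (b : Bi), φf a = φi b → ∃ r : R, ιf r = a)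
    (c : ℕ)
    (hT : ∀ m : M, (∃ (α : Bf) (β : Bi), φf (ιf w) ^ (c + 1) * m = φf α + φi β) →
          ∃ (α : Bf) (β : Bi), φf (ιf w) ^ c * m = φf α + φi β)
    (ef : Bf) (ei : Bi)
    (hef : ιf w ∣ ef ^ 2 - ef) (hei : ιi w ∣ ei ^ 2 - ei)
    (hcompat : φf (ιf w) ∣ φf ef - φi ei) :
    (ιf w ∣ ef ∧ ιi w ∣ ei) ∨ (ιf w ∣ ef - 1 ∧ ιi w ∣ ei - 1) := by
  obtain ⟨af, haf1, haf2⟩ := exists_idem_lift (ιf w) ef hef (c + 1)
  obtain ⟨ai, hai1, hai2⟩ := exists_idem_lift (ιi w) ei hei (c + 1)
  set ω : M := φf (ιf w) with hω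
  have hω' : φi (ιi w) = ω := (hcomm w).symm
  -- idempotency mod `ω ^ (c+1)` in `M`
  have h1 : ω ^ (c + 1) ∣ (φf af) ^ 2 - φf af := by
    have := map_dvd φf haf2
    simpa [map_pow, map_sub] using this
  have h2 : ω ^ (c + 1) ∣ (φi ai) ^ 2 - φi ai := by
    have := map_dvd φi hai2
    simpa [map_pow, map_sub, hω'] using this
  have h3 : ω ∣ φf af - φi ai := by
    have e : φf af - φi ai = φf (af - ef) + (φf ef - φi ei) - φi (ai - ei) := by
      simp only [map_sub]; ring
    rw [e]
    refine dvd_sub (dvd_add ?_ hcompat) ?_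
    · exact map_dvd φf haf1
    · have := map_dvd φi hai1
      rwa [hω'] at this
  obtain ⟨m, hm⟩ := idem_unique ω (φf af) (φi ai) (c + 1) h1 h2 h3
  obtain ⟨α, β, hαβ⟩ := hT m ⟨af, -ai, by rw [← hm, map_neg]; ring⟩
  -- the glued global section
  have h4 : φf (af - ιf w * α) = φi (ai + ιi w * β) := by
    simp only [map_sub, map_add, map_mul, hω', ← hω]
    have : φf af - φi ai = ω * (φf α + φi β) := by
      rw [hm, ← hαβ]; ring
    linear_combination this
  obtain ⟨r, hr⟩ := hinter _ _ h4
  have hr' : ιi r = ai + ιi w * β := by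
    apply hφi
    rw [← h4, ← hr, hcomm]
  -- `w ∣ ιf (r ^ 2 - r)`
  have h5 : ιf w ∣ ιf (r ^ 2 - r) := by
    have hw1 : ιf w ∣ af ^ 2 - af := dvd_trans (dvd_pow_self _ (Nat.succ_ne_zero c)) haf2
    have e : ιf (r ^ 2 - r) = (af ^ 2 - af) + ιf w * (ιf w * α ^ 2 - 2 * af * α + α) := by
      simp only [map_sub, map_pow, hr]; ring
    rw [e]
    exact dvd_add hw1 (dvd_mul_right _ _)
  have h6 : ¬ IsUnit (r ^ 2 - r) := by
    intro hu
    exact hone (isUnit_of_dvd_unit h5 (hu.map ιf))
  have h7 : ¬ IsUnit r ∨ ¬ IsUnit (r - 1) := by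
    by_contra hcon
    rw [not_or, not_not, not_not] at hcon
    apply h6
    have e : r ^ 2 - r = r * (r - 1) := by ring
    rw [e]
    exact hcon.1.mul hcon.2
  rcases h7 with h | h
  · left
    obtain ⟨s, hs⟩ := hmax r h
    constructor
    · have d1 : ιf w ∣ af := by
        have e : af = ιf r + ιf w * α := by rw [hr]; ring
        rw [e, hs, map_mul]
        exact dvd_add (dvd_mul_right _ _) (dvd_mul_right _ _)
      have e : ef = af - (af - ef) := by ring
      rw [e]
      exact dvd_sub d1 haf1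
    · have d1 : ιi w ∣ ai := by
        have e : ai = ιi r - ιi w * β := by rw [hr']; ring
        rw [e, hs, map_mul]
        exact dvd_sub (dvd_mul_right _ _) (dvd_mul_right _ _)
      have e : ei = ai - (ai - ei) := by ring
      rw [e]
      exact dvd_sub d1 hai1
  · right
    obtain ⟨s, hs⟩ := hmax (r - 1) h
    have hs' : r = w * s + 1 := by rw [← hs]; ring
    constructor
    · have d1 : ιf w ∣ af - 1 := by
        have e : af - 1 = ιf r - 1 + ιf w * α := by rw [hr]; ring
        rw [e, hs', map_add, map_mul, map_one]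
        have e2 : ιf w * ιf s + 1 - 1 + ιf w * α = ιf w * (ιf s + α) := by ring
        rw [e2]
        exact dvd_mul_right _ _
      have e : ef - 1 = (af - 1) - (af - ef) := by ring
      rw [e]
      exact dvd_sub d1 haf1
    · have d1 : ιi w ∣ ai - 1 := by
        have e : ai - 1 = ιi r - 1 - ιi w * β := by rw [hr']; ring
        rw [e, hs', map_add, map_mul, map_one]
        have e2 : ιi w * ιi s + 1 - 1 - ιi w * β = ιi w * (ιi s - β) := by ring
        rw [e2]
        exact dvd_mul_right _ _
      have e : ei - 1 = (ai - 1) - (ai - ei) := by ring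
      rw [e]
      exact dvd_sub d1 hai1

end Fermat.Agent.S37.H817
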