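import Fermat.Agent.S37.H817.TorsionBound
import Fermat.Agent.S37.H817.Connected

/-!
# The Čech `H¹` of a two-chart cover: finite generation, torsion bound, connectedness

Instance-free (ring homomorphism) statements.

* `cech_generators`: finite generation of `M / (Bf + Bi)` over `R` from "degrees of the
  transition matrix": `Bf` is spanned over `R[x]` by finitely many `f i`, `x` is invertible in `M`
  with inverse coming from `Bi`, `M = Bf[1/x]` and each `f i` lies in `x ^ j • Bi`.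
* `exists_cech_torsion_bound`: if `R` is Noetherian and `M / (Bf + Bi)` is finitely generated
  then its `w`-power torsion is bounded.
* `idem_trivial_of_two_charts`: the packaged connectedness statement.
-/

set_option autoImplicit false

namespace Fermat.Agent.S37.H817

section cech

variable {R Bf Bi M : Type*} [CommRing R] [CommRing Bf] [CommRing Bi] [CommRing M]
  (ιf : R →+* Bf) (ιi : R →+* Bi) (φf : Bf →+* M) (φi : Bi →+* M)

/-- `Bf + Bi` inside `M`, as a predicate. -/
def InCechSum (m : M) : Prop := ∃ (α : Bf) (β : Bi), m = φf α + φi β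

/-- `M = Bf + Bi + ∑_{g ∈ G} R g`, as a predicate on the finite set `G`. -/
def CechGenerates (G : Finset M) : Prop :=
  ∀ m : M, ∃ (α : Bf) (β : Bi) (coef : M → R),
    m = φf α + φi β + ∑ g ∈ G, φf (ιf (coef g)) * g

variable {ιf ιi φf φi}

/-- Bounded `w`-power torsion of `M / (Bf + Bi)` when it is finitely generated over the
Noetherian ring `R`. -/
theorem exists_cech_torsion_bound [IsNoetherianRing R]
    (hcomm : ∀ r : R, φf (ιf r) = φi (ιi r)) (w : R)
    (G : Finset M) (hG : CechGenerates ιf φf φi G) :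
    ∃ c : ℕ, ∀ (n : ℕ) (m : M), InCechSum φf φi (φf (ιf w) ^ n * m) →
      InCechSum φf φi (φf (ιf w) ^ c * m) := by
  classical
  letI : Algebra R M := (φf.comp ιf).toAlgebra
  have hsmul : ∀ (r : R) (m : M), r • m = φf (ιf r) * m := fun r m => rfl
  let S : Submodule R M :=
    { carrier := {m | InCechSum φf φi m}
      zero_mem' := ⟨0, 0, by simp⟩
      add_mem' := by
        rintro a b ⟨α, β, rfl⟩ ⟨α', β', rfl⟩
        exact ⟨α + α', β + β', by simp only [map_add]; ring⟩
      smul_mem' := by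
        rintro r a ⟨α, β, rfl⟩
        refine ⟨ιf r * α, ιi r * β, ?_⟩
        rw [hsmul, map_mul, map_mul, ← hcomm]; ring }
  have hS : ∀ m, m ∈ S ↔ InCechSum φf φi m := fun m => Iff.rfl
  have hfin : Module.Finite R (M ⧸ S) := by
    refine ⟨⟨G.image S.mkQ, ?_⟩⟩
    rw [eq_top_iff]
    rintro z -
    obtain ⟨m, rfl⟩ := S.mkQ_surjective z
    obtain ⟨α, β, coef, hm⟩ := hG m
    have h0 : S.mkQ (φf α + φi β) = 0 := by
      rw [Submodule.mkQ_apply, Submodule.Quotient.mk_eq_zero]
      exact ⟨α, β, rfl⟩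
    rw [hm, map_add, h0, zero_add, map_sum]
    refine Submodule.sum_mem _ (fun g hg => ?_)
    rw [← hsmul, map_smul]
    refine Submodule.smul_mem _ _ (Submodule.subset_span ?_)
    rw [Finset.coe_image]
    exact ⟨g, hg, rfl⟩
  haveI : IsNoetherian R (M ⧸ S) := isNoetherian_of_isNoetherianRing_of_finite R (M ⧸ S)
  obtain ⟨c, hc⟩ := exists_torsion_bound S w
  refine ⟨c, fun n m hm => ?_⟩
  have h1 : w ^ n • m ∈ S := by
    rw [hS, hsmul, map_pow, map_pow]; exact hm
  have h2 := hc n m h1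
  rw [hS, hsmul, map_pow, map_pow] at h2
  exact h2

/-- Finite generation of `M / (Bf + Bi)`. -/
theorem cech_generators
    (hcomm : ∀ r : R, φf (ιf r) = φi (ιi r))
    (x : Bf) (y : Bi) (hxy : φf x * φi y = 1)
    (n : ℕ) (f : Fin n → Bf)
    (hf : ∀ b : Bf, ∃ P : Fin n → Polynomial R, b = ∑ i, (P i).eval₂ ιf x * f i)
    (hMf : ∀ m : M, ∃ (j : ℕ) (b : Bf), m = φi y ^ j * φf b)
    (hMi : ∀ i, ∃ (j : ℕ) (b : Bi), φf (f i) = φf x ^ j * φi b) :
    ∃ G : Finset M, CechGenerates ιf φf φi G := by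
  classical
  letI : Algebra R M := (φf.comp ιf).toAlgebra
  have hsmul : ∀ (r : R) (m : M), r • m = φf (ιf r) * m := fun r m => rfl
  let S : Submodule R M :=
    { carrier := {m | InCechSum φf φi m}
      zero_mem' := ⟨0, 0, by simp⟩
      add_mem' := by
        rintro a b ⟨α, β, rfl⟩ ⟨α', β', rfl⟩
        exact ⟨α + α', β + β', by simp only [map_add]; ring⟩
      smul_mem' := by
        rintro r a ⟨α, β, rfl⟩
        refine ⟨ιf r * α, ιi r * β, ?_⟩
        rw [hsmul, map_mul, map_mul, ← hcomm]; ring }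
  have hS : ∀ m, m ∈ S ↔ InCechSum φf φi m := fun m => Iff.rfl
  -- the bound `D`
  choose J b hJb using hMi
  let D : ℕ := Finset.univ.sup J
  have hJD : ∀ i, J i ≤ D := fun i => Finset.le_sup (f := J) (Finset.mem_univ i)
  let G : Finset M :=
    (Finset.range D ×ˢ (Finset.univ : Finset (Fin n))).image
      (fun p => φi y ^ p.1 * φf (f p.2))
  let N : Submodule R M := S ⊔ Submodule.span R (G : Set M)
  have hyx : ∀ k : ℕ, φi y ^ k * φf x ^ k = 1 := by
    intro k
    rw [← mul_pow, mul_comm, hxy, one_pow]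
  -- negative powers
  have hneg : ∀ (i : Fin n) (k : ℕ), φi y ^ k * φf (f i) ∈ N := by
    intro i k
    rcases lt_or_ge k D with hk | hk
    · refine Submodule.mem_sup_right (Submodule.subset_span ?_)
      rw [Finset.coe_image]
      exact ⟨(k, i), by simp [hk], rfl⟩
    · refine Submodule.mem_sup_left ?_
      rw [hS]
      refine ⟨0, y ^ (k - J i) * b i, ?_⟩
      have hk' : J i ≤ k := le_trans (hJD i) hk
      obtain ⟨t, rfl⟩ := Nat.exists_eq_add_of_le hk'
      rw [hJb i, map_zero, zero_add, map_mul, map_pow, Nat.add_sub_cancel_left, pow_add]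
      linear_combination (φi y ^ t * φi (b i)) * hyx (J i)
  have hall : ∀ (i : Fin n) (t j : ℕ), φi y ^ j * φf (x ^ t * f i) ∈ N := by
    intro i t j
    rcases le_total j t with h | h
    · obtain ⟨s, rfl⟩ := Nat.exists_eq_add_of_le h
      refine Submodule.mem_sup_left ?_
      rw [hS]
      refine ⟨x ^ s * f i, 0, ?_⟩
      simp only [map_mul, map_pow, map_zero, add_zero, pow_add]
      linear_combination (φf x ^ s * φf (f i)) * hyx j
    · obtain ⟨s, rfl⟩ := Nat.exists_eq_add_of_le h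
      have e : φi y ^ (t + s) * φf (x ^ t * f i) = φi y ^ s * φf (f i) := by
        simp only [map_mul, map_pow, pow_add]
        linear_combination (φi y ^ s * φf (f i)) * hyx t
      rw [e]
      exact hneg i s
  have htop : ∀ m : M, m ∈ N := by
    intro m
    obtain ⟨j, b₀, rfl⟩ := hMf m
    obtain ⟨P, rfl⟩ := hf b₀
    rw [map_sum, Finset.mul_sum]
    refine Submodule.sum_mem _ (fun i _ => ?_)
    rw [Polynomial.eval₂_eq_sum_range, Finset.sum_mul, map_sum, Finset.mul_sum]
    refine Submodule.sum_mem _ (fun t _ => ?_)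
    have e : φi y ^ j * φf (ιf ((P i).coeff t) * x ^ t * f i)
        = ((P i).coeff t) • (φi y ^ j * φf (x ^ t * f i)) := by
      rw [hsmul]
      simp only [map_mul, map_pow]
      ring
    rw [e]
    exact Submodule.smul_mem _ _ (hall i t j)
  refine ⟨G, fun m => ?_⟩
  obtain ⟨s, hs, t, ht, rfl⟩ := Submodule.mem_sup.mp (htop m)
  obtain ⟨α, β, rfl⟩ := (hS s).mp hs
  obtain ⟨coef, -, rfl⟩ := (Submodule.mem_span_finset).mp ht
  exact ⟨α, β, coef, rfl⟩

/-- **Connectedness of the special fibre of a two-chart cover** (packaged form).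

`R` is a Noetherian local ring with maximal ideal `(w)`; `Bf`, `Bi` are `R`-algebras with
compatible maps to `M`; `Bi → M` is injective and `Bf ∩ Bi = R` in `M`; `w` is not a unit of `Bf`;
`x ∈ Bf` and `y ∈ Bi` are inverse to each other in `M`, `Bf` is spanned over `R[x]` by finitely
many `f i`, `M = ⋃ y ^ j • Bf` and `f i ∈ x ^ j • Bi`.
Then a pair `(ef, ei)` of idempotents modulo `w` which agree modulo `w` in `M` is trivial. -/
theorem idem_trivial_of_two_charts [IsNoetherianRing R]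
    (hcomm : ∀ r : R, φf (ιf r) = φi (ιi r))
    (hφi : Function.Injective φi)
    (w : R)
    (hmax : ∀ r : R, ¬ IsUnit r → w ∣ r)
    (hone : ¬ IsUnit (ιf w))
    (hinter : ∀ (a : Bf) (b : Bi), φf a = φi b → ∃ r : R, ιf r = a)
    (x : Bf) (y : Bi) (hxy : φf x * φi y = 1)
    (n : ℕ) (f : Fin n → Bf)
    (hf : ∀ b : Bf, ∃ P : Fin n → Polynomial R, b = ∑ i, (P i).eval₂ ιf x * f i)
    (hMf : ∀ m : M, ∃ (j : ℕ) (b : Bf), m = φi y ^ j * φf b)
    (hMi : ∀ i, ∃ (j : ℕ) (b : Bi), φf (f i) = φf x ^ j * φi b)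
    (ef : Bf) (ei : Bi)
    (hef : ιf w ∣ ef ^ 2 - ef) (hei : ιi w ∣ ei ^ 2 - ei)
    (hcompat : φf (ιf w) ∣ φf ef - φi ei) :
    (ιf w ∣ ef ∧ ιi w ∣ ei) ∨ (ιf w ∣ ef - 1 ∧ ιi w ∣ ei - 1) := by
  obtain ⟨G, hG⟩ := cech_generators hcomm x y hxy n f hf hMf hMi
  obtain ⟨c, hc⟩ := exists_cech_torsion_bound hcomm w G hG
  exact idem_trivial_of_cech ιf ιi φf φi hcomm hφi w hmax hone hinter c
    (fun m hm => hc (c + 1) m hm) ef ei hef hei hcompat

/-- Corollary: a family of pairwise orthogonal (mod `w`), nonzero (mod `w`), compatible idempotents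
(mod `w`) on the two charts has at most one member. -/
theorem subsingleton_of_orthogonal_idems [IsNoetherianRing R]
    (hcomm : ∀ r : R, φf (ιf r) = φi (ιi r))
    (hφi : Function.Injective φi)
    (w : R)
    (hmax : ∀ r : R, ¬ IsUnit r → w ∣ r)
    (hone : ¬ IsUnit (ιf w))
    (hinter : ∀ (a : Bf) (b : Bi), φf a = φi b → ∃ r : R, ιf r = a)
    (x : Bf) (y : Bi) (hxy : φf x * φi y = 1)
    (n : ℕ) (f : Fin n → Bf)
    (hf : ∀ b : Bf, ∃ P : Fin n → Polynomial R, b = ∑ i, (P i).eval₂ ιf x * f i)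
    (hMf : ∀ m : M, ∃ (j : ℕ) (b : Bf), m = φi y ^ j * φf b)
    (hMi : ∀ i, ∃ (j : ℕ) (b : Bi), φf (f i) = φf x ^ j * φi b)
    {κ : Type*} (ef : κ → Bf) (ei : κ → Bi)
    (hef : ∀ k, ιf w ∣ ef k ^ 2 - ef k) (hei : ∀ k, ιi w ∣ ei k ^ 2 - ei k)
    (hcompat : ∀ k, φf (ιf w) ∣ φf (ef k) - φi (ei k))
    (hne : ∀ k, ¬ ιf w ∣ ef k)
    (horth : ∀ k l, k ≠ l → ιf w ∣ ef k * ef l) :
    Subsingleton κ := by
  refine ⟨fun k l => ?_⟩
  by_contra hkl
  have hk : ιf w ∣ ef k - 1 := by
    rcases idem_trivial_of_two_charts hcomm hφi w hmax hone hinter x y hxy n f hf hMf hMi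
      (ef k) (ei k) (hef k) (hei k) (hcompat k) with h | h
    · exact absurd h.1 (hne k)
    · exact h.1
  have h1 : ιf w ∣ ef l := by
    have e : ef l = ef k * ef l - (ef k - 1) * ef l := by ring
    rw [e]
    exact dvd_sub (horth k l hkl) (Dvd.dvd.mul_right hk _)
  exact hne l h1

end cech

end Fermat.Agent.S37.H817
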