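import Fermat.Agent.S37.H817.GalCharts
import Fermat.Agent.S24.Mod
import Fermat.Agent.S24.Alg
import Fermat.Agent.S24.FFFinite

/-!
# [GAL] `geoRed_inertia` — exact frozen statement of `Skeleton2.geoRed_inertia` (row S37)

`G.r (τ • P) = G.r P` for `τ` in the inertia group at `A`, for every geometric place reduction
`G : GeoRed A N`.  Proof: `GalCharts.geoRed_inertia_of_valuesExist` + existence of values at the
places of `ℚ̄(X₀(N))` (landed S24 function-field layer).
-/

set_option autoImplicit false
set_option synthInstance.maxHeartbeats 400000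

noncomputable section

namespace Fermat.Agent.S37.H817

open ModularCurve ValuationSubring AlgebraicCurve HahnSeries Fermat.Agent.S37.Core

/-- values exist at every place of `ℚ̄(X₀(N))` -/
theorem valuesExist_bar (N : ℕ) [NeZero N]
    (P : Place (AlgebraicClosure ℚ) (modularFunctionFieldBar N)) : ValuesExist P := by
  intro f hf
  obtain ⟨M⟩ := Fermat.Agent.S24.nonempty_modularPackage N
  haveI := M.finiteDimensional
  have htr := Fermat.Agent.S24.transcendental_of_localData_inv (Fermat.Agent.S24.jF N) M.dataInf
  exact Fermat.Agent.S24.FF.exists_const_sub_mem_nonunits P htr hf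

/-- **PIECE [GAL]** (exact statement of `Skeleton.geoRed_inertia`). -/
theorem geoRed_inertia (N : ℕ) [NeZero N] (ℓ : ℕ) (hℓ : ℓ.Prime)
    (A : ValuationSubring (AlgebraicClosure ℚ)) (hA : A.LiesOverPrime ℓ) (G : GeoRed A N)
    (τ : AlgebraicClosure ℚ ≃ₐ[ℚ] AlgebraicClosure ℚ) (hτ : τ ∈ A.inertiaSubgroupIn ℚ)
    (P : Place (AlgebraicClosure ℚ) (modularFunctionFieldBar N)) :
    G.r (arithmeticGalois (modularFunctionFieldFull N) τ • P) = G.r P :=
  geoRed_inertia_of_valuesExist N A G τ hτ P (valuesExist_bar N P)

end Fermat.Agent.S37.H817
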