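import Fermat.Agent.S37.H817.GalMain

/-!
# [GAL] the two charts `j`, `j⁻¹` and inertia invariance from `ValuesExist`

* `jElt`, `jInvElt` : the coordinate functions as `IntElt`s;
* `geoRed_inertia_of_valuesExist` : the frozen statement `Skeleton.geoRed_inertia` under the
  hypothesis that values exist at every place of `ℚ̄(X₀(N))` (discharged in `Gal.lean`).
-/

set_option autoImplicit false
set_option synthInstance.maxHeartbeats 400000

noncomputable section

namespace Fermat.Agent.S37.H817

open ModularCurve ValuationSubring AlgebraicCurve HahnSeries Fermat.Agent.S37.Core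

local notation "Kb" => AlgebraicClosure ℚ

section series

variable (R : Type*) [CommRing R]

theorem coeffMap_jqModC {S : Type*} [CommRing S] (f : R →+* S) :
    coeffMap f (jqModC R) = jqModC S :=
  map_jqModC f

/-- the inverse of `j` as a q-series over any commutative ring -/
def jInvSeries : LaurentSeries R :=
  HahnSeries.single (1 : ℤ) 1 *
    HahnSeries.ofPowerSeries ℤ R
      (PowerSeries.invOfUnit (jNum.map (Int.castRingHom R)) 1)

theorem jInvSeries_mul : jInvSeries R * jqModC R = 1 := by
  have hc : PowerSeries.constantCoeff (jNum.map (Int.castRingHom R)) = ((1 : Rˣ) : R) := by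
    have : PowerSeries.constantCoeff (jNum.map (Int.castRingHom R))
        = Int.castRingHom R (PowerSeries.constantCoeff jNum) := by
      rw [← PowerSeries.coeff_zero_eq_constantCoeff_apply, PowerSeries.coeff_map,
        PowerSeries.coeff_zero_eq_constantCoeff_apply]
    rw [this, constantCoeff_jNum]
    simp
  have h1 : jNum.map (Int.castRingHom R) * PowerSeries.invOfUnit (jNum.map (Int.castRingHom R)) 1
      = 1 := PowerSeries.mul_invOfUnit _ _ hc
  have h2 : HahnSeries.ofPowerSeries ℤ R (PowerSeries.invOfUnit (jNum.map (Int.castRingHom R)) 1)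
      * HahnSeries.ofPowerSeries ℤ R (jNum.map (Int.castRingHom R)) = 1 := by
    rw [← map_mul, mul_comm, h1, map_one]
  have h3 : (HahnSeries.single (1 : ℤ) (1 : R)) * HahnSeries.single (-1 : ℤ) (1 : R) = 1 := by
    rw [HahnSeries.single_mul_single]
    simp
  unfold jInvSeries jqModC
  calc _ = (HahnSeries.single (1 : ℤ) (1 : R) * HahnSeries.single (-1 : ℤ) (1 : R)) *
        (HahnSeries.ofPowerSeries ℤ R (PowerSeries.invOfUnit (jNum.map (Int.castRingHom R)) 1)
          * HahnSeries.ofPowerSeries ℤ R (jNum.map (Int.castRingHom R))) := by ring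
    _ = 1 := by rw [h2, h3, mul_one]

theorem eq_jInvSeries_of_mul {u : LaurentSeries R} (hu : u * jqModC R = 1) :
    u = jInvSeries R := by
  calc u = u * (jqModC R * jInvSeries R) := by
        rw [mul_comm (jqModC R), jInvSeries_mul, mul_one]
    _ = (u * jqModC R) * jInvSeries R := by ring
    _ = jInvSeries R := by rw [hu, one_mul]

theorem coeffMap_jInvSeries {S : Type*} [CommRing S] (f : R →+* S) :
    coeffMap f (jInvSeries R) = jInvSeries S := by
  apply eq_jInvSeries_of_mul
  rw [← coeffMap_jqModC R f, ← map_mul, jInvSeries_mul, map_one]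

end series

section elts

variable (A : ValuationSubring Kb) (N : ℕ) [NeZero N]

theorem jqModC_mem_bar : jqModC Kb ∈ modularFunctionFieldBar N := by
  have h1 : jq ∈ modularFunctionFieldFull N := by
    have h := jqd_mem_full N (one_dvd N)
    rwa [qExpand_one_apply] at h
  have h2 := coeffEmb_mem_laurentBaseChange Kb h1
  have h3 : coeffEmb Kb jq = jqModC Kb := by
    rw [← jqModC_rat]
    exact coeffMap_jqModC ℚ (algebraMap ℚ Kb)
  rwa [h3] at h2

/-- the function `j` -/
def jElt : IntElt A N where
  y := jqModC A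
  mem := by
    rw [coeffMap_jqModC]
    exact jqModC_mem_bar N
  memk := by
    rw [coeffMap_jqModC]
    exact jqModC_mem_full _ N

/-- the function `j⁻¹` -/
def jInvElt : IntElt A N where
  y := jInvSeries A
  mem := by
    rw [coeffMap_jInvSeries]
    have h : jInvSeries Kb = (jqModC Kb)⁻¹ :=
      eq_inv_of_mul_eq_one_left (jInvSeries_mul Kb)
    rw [h]
    exact inv_mem (jqModC_mem_bar N)
  memk := by
    rw [coeffMap_jInvSeries]
    have h : jInvSeries (IsLocalRing.ResidueField A) = (jqModC (IsLocalRing.ResidueField A))⁻¹ :=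
      eq_inv_of_mul_eq_one_left (jInvSeries_mul _)
    rw [h]
    exact inv_mem (jqModC_mem_full _ N)

@[simp] theorem jElt_y : (jElt A N).y = jqModC A := rfl

@[simp] theorem jInvElt_y : (jInvElt A N).y = jInvSeries A := rfl

theorem jInvElt_gen : (jInvElt A N).gen = ((jElt A N).gen)⁻¹ := by
  apply eq_inv_of_mul_eq_one_left
  apply Subtype.ext
  show coeffMap A.subtype (jInvSeries A) * coeffMap A.subtype (jqModC A) = 1
  rw [← map_mul, jInvSeries_mul, map_one]

variable {A N}

theorem isIntOver_jElt_iff (c : IntElt A N) : IsIntOver (jElt A N) c ↔ c.IsFin := Iff.rfl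

theorem isIntOver_jInvElt_iff (c : IntElt A N) : IsIntOver (jInvElt A N) c ↔ c.IsInf := by
  constructor
  · rintro ⟨p, hp, h0⟩
    exact ⟨jInvSeries A, jInvSeries_mul A, p, hp, h0⟩
  · rintro ⟨u, hu, p, hp, h0⟩
    rw [eq_jInvSeries_of_mul A hu] at h0
    exact ⟨p, hp, h0⟩

end elts

/-- **[GAL] under the hypothesis that values exist.** -/
theorem geoRed_inertia_of_valuesExist (N : ℕ) [NeZero N]
    (A : ValuationSubring Kb) (G : GeoRed A N)
    (τ : Kb ≃ₐ[ℚ] Kb) (hτ : τ ∈ A.inertiaSubgroupIn ℚ)
    (P : Place Kb (modularFunctionFieldBar N)) (hP : ValuesExist P) :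
    G.r (arithmeticGalois (modularFunctionFieldFull N) τ • P) = G.r P := by
  -- the two chart statements
  have hfin : ∀ a : A, HasValue P (jElt A N).gen (a : Kb) →
      G.r (arithmeticGalois (modularFunctionFieldFull N) τ • P) = G.r P := by
    intro a ha
    refine inertia_of_chart G.r (jElt A N)
      (fun c hc P a b h1 h2 => G.vc_fin (jElt A N) rfl c ((isIntOver_jElt_iff c).mp hc) P a b h1 h2)
      (fun Q Q' a h1 h2 => G.sep_fin (jElt A N) rfl Q Q' a h1
        (fun c hc b hb => h2 c ((isIntOver_jElt_iff c).mpr hc) b hb))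
      hτ (fun σ hσ => coeffMap_jqModC A _) P hP a ha
  have hinf : ∀ a : A, HasValue P (jInvElt A N).gen (a : Kb) →
      G.r (arithmeticGalois (modularFunctionFieldFull N) τ • P) = G.r P := by
    intro a ha
    refine inertia_of_chart G.r (jInvElt A N)
      (fun c hc P a b h1 h2 =>
        G.vc_inf (jInvElt A N) (jInvSeries_mul A) c ((isIntOver_jInvElt_iff c).mp hc) P a b h1 h2)
      (fun Q Q' a h1 h2 => G.sep_inf (jInvElt A N) (jInvSeries_mul A) Q Q' a h1
        (fun c hc b hb => h2 c ((isIntOver_jInvElt_iff c).mpr hc) b hb))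
      hτ (fun σ hσ => coeffMap_jInvSeries A _) P hP a ha
  -- choose the chart
  by_cases hj : (jElt A N).gen ∈ P.toValuationSubring
  · obtain ⟨a₀, ha₀⟩ := hP _ hj
    by_cases haA : a₀ ∈ A
    · exact hfin ⟨a₀, haA⟩ ha₀
    · have hinvA : a₀⁻¹ ∈ A := (A.mem_or_inv_mem a₀).resolve_left haA
      have ha0 : a₀ ≠ 0 := by
        rintro rfl
        exact haA A.zero_mem
      refine hinf ⟨a₀⁻¹, hinvA⟩ ?_
      rw [jInvElt_gen]
      exact hasValue_inv ha₀ ha0
  · refine hinf 0 ?_
    rw [jInvElt_gen]
    show ((jElt A N).gen)⁻¹ - algebraMap Kb _ ((0 : A) : Kb) ∈ P.toValuationSubring.nonunits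
    have e : ((0 : A) : Kb) = 0 := rfl
    rw [e, map_zero, sub_zero, mem_nonunits_iff_inv, inv_inv]
    exact Or.inr hj

end Fermat.Agent.S37.H817
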