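import Fermat.Agent.S37.H817.GalInertia

/-!
# [GAL] integrality over a coordinate, conjugation of integral elements

* `IsIntOver x c` : the q-series of `c` is integral over `A[x]` (inside `A((q))`);
* `conjElt τ hτ c` : coefficientwise conjugate of `c` by an inertia element `τ`;
  it has the same reduction (`conjElt_sp`) and `gen` equal to `τ • c.gen` (`conjElt_gen`);
* `exists_hasValue_of_isIntOver` : values of integral elements at a place where the coordinate has
  an `A`-integral value are `A`-integral.
-/

set_option autoImplicit false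
set_option synthInstance.maxHeartbeats 400000

noncomputable section

namespace Fermat.Agent.S37.H817

open ModularCurve ValuationSubring AlgebraicCurve HahnSeries Fermat.Agent.S37.Core

local notation "Kb" => AlgebraicClosure ℚ

variable {A : ValuationSubring Kb} {N : ℕ}

/-- `c` is integral over `A[x]` -/
def IsIntOver (x c : IntElt A N) : Prop :=
  ∃ p : Polynomial (Polynomial A), p.Monic ∧ p.eval₂ (evalSeries A x.y) c.y = 0

theorem isIntOver_self (x : IntElt A N) : IsIntOver x x := by
  refine ⟨Polynomial.X - Polynomial.C Polynomial.X, Polynomial.monic_X_sub_C _, ?_⟩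
  rw [Polynomial.eval₂_sub, Polynomial.eval₂_X, Polynomial.eval₂_C]
  simp [evalSeries]

theorem evalSeries_C (u : LaurentSeries A) (a : A) :
    evalSeries A u (Polynomial.C a) = HahnSeries.C a := by
  simp [evalSeries]

theorem evalSeries_X (u : LaurentSeries A) : evalSeries A u Polynomial.X = u := by
  simp [evalSeries]

theorem coeffMap_C {R S : Type*} [CommRing R] [CommRing S] (f : R →+* S) (a : R) :
    coeffMap f (HahnSeries.C a : LaurentSeries R) = HahnSeries.C (f a) := by
  rw [HahnSeries.C_apply, HahnSeries.C_apply, coeffMap_single]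

/-- compatibility of `evalSeries` with a coefficient endomorphism fixing the coordinate -/
theorem evalSeries_comp_map (f : A →+* A) (u : LaurentSeries A) (hu : coeffMap f u = u) :
    (evalSeries A u).comp (Polynomial.mapRingHom f) = (coeffMap f).comp (evalSeries A u) := by
  refine Polynomial.ringHom_ext (fun a => ?_) ?_
  · simp only [RingHom.comp_apply, Polynomial.coe_mapRingHom, Polynomial.map_C, evalSeries_C,
      coeffMap_C]
  · simp only [RingHom.comp_apply, Polynomial.coe_mapRingHom, Polynomial.map_X, evalSeries_X, hu]

section conj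

variable {τ : Kb ≃ₐ[ℚ] Kb} (hτ : τ ∈ A.inertiaSubgroupIn ℚ)

/-- coefficientwise conjugate of an integral element by an inertia element -/
def conjElt (c : IntElt A N) : IntElt A N where
  y := coeffMap (inertiaRes ℚ hτ) c.y
  mem := by
    rw [coeffMap_coeffMap, subtype_comp_inertiaRes, ← coeffMap_coeffMap]
    exact coeffMap_mem_laurentBaseChange τ c.mem
  memk := by
    rw [coeffMap_coeffMap, residue_comp_inertiaRes]
    exact c.memk

theorem conjElt_sp (c : IntElt A N) : (conjElt hτ c).sp = c.sp := by
  apply Subtype.ext
  show coeffMap (IsLocalRing.residue A) (coeffMap (inertiaRes ℚ hτ) c.y)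
    = coeffMap (IsLocalRing.residue A) c.y
  rw [coeffMap_coeffMap, residue_comp_inertiaRes]

theorem conjElt_gen (c : IntElt A N) :
    (conjElt hτ c).gen = arithmeticGalois (modularFunctionFieldFull N) τ • c.gen := by
  apply Subtype.ext
  show coeffMap A.subtype (coeffMap (inertiaRes ℚ hτ) c.y)
    = coeffMap (τ : Kb →+* Kb) (coeffMap A.subtype c.y)
  rw [coeffMap_coeffMap, subtype_comp_inertiaRes, ← coeffMap_coeffMap]

theorem isIntOver_conjElt {x c : IntElt A N} (hx : coeffMap (inertiaRes ℚ hτ) x.y = x.y)
    (hc : IsIntOver x c) : IsIntOver x (conjElt hτ c) := by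
  obtain ⟨p, hp, h0⟩ := hc
  refine ⟨p.map (Polynomial.mapRingHom (inertiaRes ℚ hτ)), hp.map _, ?_⟩
  show Polynomial.eval₂ (evalSeries A x.y) (coeffMap (inertiaRes ℚ hτ) c.y)
    (p.map (Polynomial.mapRingHom (inertiaRes ℚ hτ))) = 0
  rw [Polynomial.eval₂_map, evalSeries_comp_map _ _ hx, ← Polynomial.hom_eval₂, h0, map_zero]

end conj

end Fermat.Agent.S37.H817
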