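import Fermat.Agent.S37.H817.GalConj

/-!
# [GAL] inertia invariance of a geometric place reduction, generic chart form

* `exists_hasValue_of_isIntOver` : if the coordinate `x` has the `A`-integral value `a` at the
  place `P`, then every `c` integral over `A[x]` has an `A`-integral value at `P`
  (given that values exist at `P`).
* `inertia_of_chart` : the chart form of inertia invariance: from value compatibility `vc` and
  separation `sep` for the coordinate `x` (fixed by the inertia element `τ`),
  `r (τ • P) = r P` for every place `P` at which `x` has an `A`-integral value.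
-/

set_option autoImplicit false
set_option synthInstance.maxHeartbeats 400000

noncomputable section

namespace Fermat.Agent.S37.H817

open ModularCurve ValuationSubring AlgebraicCurve HahnSeries Fermat.Agent.S37.Core

local notation "Kb" => AlgebraicClosure ℚ

variable {A : ValuationSubring Kb} {N : ℕ}

/-- values exist at the place `P` (i.e. the residue field of `P` is `ℚ̄`) -/
def ValuesExist (P : Place Kb (modularFunctionFieldBar N)) : Prop :=
  ∀ f : modularFunctionFieldBar N, f ∈ P.toValuationSubring → ∃ b : Kb, HasValue P f b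

/-- the evaluation `A[X] → F`, `X ↦ x` -/
def evalGen (x : IntElt A N) : Polynomial A →+* modularFunctionFieldBar N :=
  Polynomial.eval₂RingHom ((algebraMap Kb (modularFunctionFieldBar N)).comp A.subtype) x.gen

theorem evalGen_C (x : IntElt A N) (a : A) :
    evalGen x (Polynomial.C a) = algebraMap Kb (modularFunctionFieldBar N) (a : Kb) := by
  simp [evalGen]

theorem evalGen_X (x : IntElt A N) : evalGen x Polynomial.X = x.gen := by
  simp [evalGen]

theorem coe_evalGen (x : IntElt A N) (q : Polynomial A) :
    ((evalGen x q : modularFunctionFieldBar N) : LaurentSeries Kb)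
      = coeffMap A.subtype (evalSeries A x.y q) := by
  have h : ((modularFunctionFieldBar N).val : modularFunctionFieldBar N →+* LaurentSeries Kb).comp
      (evalGen x) = (coeffMap A.subtype).comp (evalSeries A x.y) := by
    refine Polynomial.ringHom_ext (fun a => ?_) ?_
    · simp only [RingHom.comp_apply, evalGen_C, evalSeries_C, coeffMap_C]
      show algebraMap Kb (LaurentSeries Kb) (a : Kb) = HahnSeries.C (A.subtype a)
      rw [algebraMap_laurentSeries_eq_single, HahnSeries.C_apply]
      rfl
    · simp only [RingHom.comp_apply, evalGen_X, evalSeries_X]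
      rfl
  exact congrArg (fun φ : Polynomial A →+* LaurentSeries Kb => φ q) h

/-- the relation of integrality, inside the function field -/
theorem eval₂_evalGen_eq_zero {x c : IntElt A N} {p : Polynomial (Polynomial A)}
    (h0 : p.eval₂ (evalSeries A x.y) c.y = 0) : p.eval₂ (evalGen x) c.gen = 0 := by
  apply Subtype.ext
  have h1 : ((p.eval₂ (evalGen x) c.gen : modularFunctionFieldBar N) : LaurentSeries Kb)
      = p.eval₂ (((modularFunctionFieldBar N).val :
          modularFunctionFieldBar N →+* LaurentSeries Kb).comp (evalGen x))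
        ((modularFunctionFieldBar N).val c.gen) :=
    Polynomial.hom_eval₂ p (evalGen x)
      ((modularFunctionFieldBar N).val : modularFunctionFieldBar N →+* LaurentSeries Kb) c.gen
  have h2 : ((modularFunctionFieldBar N).val :
      modularFunctionFieldBar N →+* LaurentSeries Kb).comp (evalGen x)
      = (coeffMap A.subtype).comp (evalSeries A x.y) :=
    RingHom.ext fun q => coe_evalGen x q
  rw [h1, h2]
  have h3 : (modularFunctionFieldBar N).val c.gen = coeffMap A.subtype c.y := rfl
  rw [h3, ← Polynomial.hom_eval₂, h0, map_zero]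
  rfl

/-- values of polynomials in the coordinate -/
theorem hasValue_evalGen {x : IntElt A N} {P : Place Kb (modularFunctionFieldBar N)} {a : A}
    (hx : HasValue P x.gen (a : Kb)) (q : Polynomial A) :
    HasValue P (evalGen x q) ((q.eval a : A) : Kb) := by
  have e1 : evalGen x q = ∑ i ∈ Finset.range (q.natDegree + 1),
      algebraMap Kb (modularFunctionFieldBar N) ((q.coeff i : A) : Kb) * x.gen ^ i := by
    show Polynomial.eval₂ _ _ q = _
    rw [Polynomial.eval₂_eq_sum_range]
    rfl
  have e2 : ((q.eval a : A) : Kb) = ∑ i ∈ Finset.range (q.natDegree + 1),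
      ((q.coeff i : A) : Kb) * (a : Kb) ^ i := by
    rw [Polynomial.eval_eq_sum_range]
    have : ∀ z : A, (z : Kb) = A.subtype z := fun _ => rfl
    rw [this, map_sum]
    refine Finset.sum_congr rfl fun i _ => ?_
    rw [map_mul, map_pow]
    rfl
  rw [e1, e2]
  exact hasValue_sum _ _ _ fun i _ => hasValue_mul (hasValue_const P _) (hasValue_pow hx i)

theorem evalGen_mem {x : IntElt A N} {P : Place Kb (modularFunctionFieldBar N)} {a : A}
    (hx : HasValue P x.gen (a : Kb)) (q : Polynomial A) :
    evalGen x q ∈ P.toValuationSubring :=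
  hasValue_mem (hasValue_evalGen hx q)

/-- integral elements are regular at places where the coordinate has an integral value -/
theorem gen_mem_of_isIntOver {x c : IntElt A N} (hc : IsIntOver x c)
    {P : Place Kb (modularFunctionFieldBar N)} {a : A} (hx : HasValue P x.gen (a : Kb)) :
    c.gen ∈ P.toValuationSubring := by
  obtain ⟨p, hp, h0⟩ := hc
  have h1 := eval₂_evalGen_eq_zero h0
  let ψO : Polynomial A →+* P.toValuationSubring :=
    (evalGen x).codRestrict P.toValuationSubring.toSubring fun q => evalGen_mem hx q
  have hint : IsIntegral P.toValuationSubring c.gen := by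
    refine ⟨p.map ψO, hp.map _, ?_⟩
    rw [Polynomial.eval₂_map]
    have : (algebraMap P.toValuationSubring (modularFunctionFieldBar N)).comp ψO = evalGen x :=
      RingHom.ext fun _ => rfl
    rw [this]
    exact h1
  obtain ⟨y, hy⟩ := IsIntegrallyClosed.isIntegral_iff.mp hint
  rw [← hy]
  exact y.2

/-- **Integrality of values.** -/
theorem exists_hasValue_of_isIntOver {x c : IntElt A N} (hc : IsIntOver x c)
    {P : Place Kb (modularFunctionFieldBar N)} (hP : ValuesExist P) {a : A}
    (hx : HasValue P x.gen (a : Kb)) : ∃ b : A, HasValue P c.gen (b : Kb) := by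
  have hmem := gen_mem_of_isIntOver hc hx
  obtain ⟨b₀, hb₀⟩ := hP c.gen hmem
  obtain ⟨p, hp, h0⟩ := hc
  have h1 := eval₂_evalGen_eq_zero h0
  -- the value of the relation
  let q : Polynomial A := p.map (Polynomial.evalRingHom a)
  have hq : q.Monic := hp.map _
  have hdeg : q.natDegree = p.natDegree := hp.natDegree_map _
  have hval : HasValue P (p.eval₂ (evalGen x) c.gen) (q.eval₂ A.subtype b₀) := by
    rw [Polynomial.eval₂_eq_sum_range, Polynomial.eval₂_eq_sum_range, hdeg]
    refine hasValue_sum _ _ _ fun i _ => hasValue_mul ?_ (hasValue_pow hb₀ i)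
    have : A.subtype (q.coeff i) = (((p.coeff i).eval a : A) : Kb) := by
      show ((q.coeff i : A) : Kb) = _
      rw [Polynomial.coeff_map]
      rfl
    rw [this]
    exact hasValue_evalGen hx _
  rw [h1] at hval
  have hzero : q.eval₂ A.subtype b₀ = 0 := hasValue_zero_eq hval
  have hint : IsIntegral A b₀ := ⟨q, hq, hzero⟩
  obtain ⟨y, hy⟩ := IsIntegrallyClosed.isIntegral_iff.mp hint
  refine ⟨y, ?_⟩
  have : ((y : A) : Kb) = b₀ := hy
  rw [this]
  exact hb₀

/-- **Chart form of inertia invariance.** -/
theorem inertia_of_chart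
    (r : Place Kb (modularFunctionFieldBar N) →
      Place (IsLocalRing.ResidueField A)
        (modularFunctionFieldFullC (IsLocalRing.ResidueField A) N))
    (x : IntElt A N)
    (vc : ∀ c : IntElt A N, IsIntOver x c →
      ∀ (P : Place Kb (modularFunctionFieldBar N)) (a b : A),
        HasValue P x.gen a → HasValue P c.gen b → HasValue (r P) c.sp (IsLocalRing.residue A b))
    (sep : ∀ (Q Q' : Place (IsLocalRing.ResidueField A)
        (modularFunctionFieldFullC (IsLocalRing.ResidueField A) N))
        (a : IsLocalRing.ResidueField A), HasValue Q x.sp a →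
        (∀ c : IntElt A N, IsIntOver x c → ∀ b : IsLocalRing.ResidueField A,
          HasValue Q c.sp b → HasValue Q' c.sp b) → Q = Q')
    {τ : Kb ≃ₐ[ℚ] Kb} (hτ : τ ∈ A.inertiaSubgroupIn ℚ)
    (hxτ : ∀ σ : Kb ≃ₐ[ℚ] Kb, ∀ hσ : σ ∈ A.inertiaSubgroupIn ℚ,
      coeffMap (inertiaRes ℚ hσ) x.y = x.y)
    (P : Place Kb (modularFunctionFieldBar N)) (hP : ValuesExist P)
    (a : A) (ha : HasValue P x.gen (a : Kb)) :
    r (arithmeticGalois (modularFunctionFieldFull N) τ • P) = r P := by
  set g := arithmeticGalois (modularFunctionFieldFull N) τ with hg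
  have hτ' : τ⁻¹ ∈ A.inertiaSubgroupIn ℚ := inv_mem hτ
  -- the coordinate is fixed by `g`
  have hgx : g • x.gen = x.gen := by
    rw [← conjElt_gen hτ x]
    apply Subtype.ext
    show coeffMap A.subtype (coeffMap (inertiaRes ℚ hτ) x.y) = coeffMap A.subtype x.y
    rw [hxτ τ hτ]
  have hbase : ∀ z : Kb, SemilinearAut.baseAut g z = τ z := fun _ => rfl
  -- value of the coordinate at `g • P`
  have ha' : HasValue (g • P) x.gen ((inertiaRes ℚ hτ a : A) : Kb) := by
    have := hasValue_smul g ha
    rwa [hgx, hbase] at this
  symm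
  refine sep (r P) (r (g • P)) (IsLocalRing.residue A a) (vc x (isIntOver_self x) P a a ha ha)
    (fun c hc b hb => ?_)
  -- the conjugate element
  have hc' : IsIntOver x (conjElt hτ' c) := isIntOver_conjElt hτ' (hxτ _ hτ') hc
  obtain ⟨b', hb'⟩ := exists_hasValue_of_isIntOver hc' hP ha
  have h1 : HasValue (r P) (conjElt hτ' c).sp (IsLocalRing.residue A b') :=
    vc _ hc' P a b' ha hb'
  rw [conjElt_sp] at h1
  have hbb' : b = IsLocalRing.residue A b' := hasValue_unique hb h1
  -- transport to `g • P`
  have h2 : HasValue (g • P) (g • (conjElt hτ' c).gen) (SemilinearAut.baseAut g (b' : Kb)) :=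
    hasValue_smul g hb'
  have h3 : g • (conjElt hτ' c).gen = c.gen := by
    rw [conjElt_gen, hg, map_inv, smul_inv_smul]
  rw [h3, hbase] at h2
  have h4 : HasValue (r (g • P)) c.sp (IsLocalRing.residue A (inertiaRes ℚ hτ b')) :=
    vc c hc (g • P) (inertiaRes ℚ hτ a) (inertiaRes ℚ hτ b') ha' h2
  rw [residue_inertiaRes] at h4
  rw [hbb']
  exact h4

end Fermat.Agent.S37.H817
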