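import Fermat.Agent.S37.Core.Geo

/-!
# [GAL] generic lemmas on values of functions at places

* `mem_nonunits_iff_inv`, `hasValue_unique`, `HasValue.mem`, `hasValue_smul`,
  `hasValue_add/mul/const` and the evaluation of polynomial expressions.
-/

set_option autoImplicit false

noncomputable section

namespace Fermat.Agent.S37.H817

open AlgebraicCurve Fermat.Agent.S37.Core

open scoped Pointwise

section generic

variable {K F : Type*} [Field K] [Field F] [Algebra K F]

theorem mem_nonunits_iff_inv (O : ValuationSubring F) (x : F) :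
    x ∈ O.nonunits ↔ x = 0 ∨ x⁻¹ ∉ O := by
  rw [ValuationSubring.mem_nonunits_iff]
  constructor
  · intro h
    by_cases hx : x = 0
    · exact Or.inl hx
    · right
      intro hinv
      have h1 : O.valuation x⁻¹ ≤ 1 := (ValuationSubring.valuation_le_one_iff O _).mpr hinv
      rw [map_inv₀] at h1
      have h2 : O.valuation x ≠ 0 := (Valuation.ne_zero_iff _).mpr hx
      have h3 : 1 ≤ O.valuation x := by
        by_contra hlt
        rw [not_le] at hlt
        have := (one_lt_inv₀ (zero_lt_iff.mpr h2)).mpr hlt
        exact absurd h1 (not_le.mpr this)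
      exact absurd h (not_lt.mpr h3)
  · rintro (rfl | h)
    · simp
    · by_contra hge
      rw [not_lt] at hge
      apply h
      rw [← ValuationSubring.valuation_le_one_iff, map_inv₀]
      exact inv_le_one_of_one_le₀ hge

theorem nonunits_sub_mem (O : ValuationSubring F) {x y : F} (hx : x ∈ O.nonunits)
    (hy : y ∈ O.nonunits) : x - y ∈ O.nonunits := by
  rw [ValuationSubring.mem_nonunits_iff] at hx hy ⊢
  exact lt_of_le_of_lt (Valuation.map_sub _ _ _) (max_lt hx hy)

theorem nonunits_add_mem (O : ValuationSubring F) {x y : F} (hx : x ∈ O.nonunits)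
    (hy : y ∈ O.nonunits) : x + y ∈ O.nonunits := by
  rw [ValuationSubring.mem_nonunits_iff] at hx hy ⊢
  exact lt_of_le_of_lt (Valuation.map_add _ _ _) (max_lt hx hy)

theorem nonunits_mul_mem (O : ValuationSubring F) {x y : F} (hx : x ∈ O.nonunits)
    (hy : y ∈ O) : x * y ∈ O.nonunits := by
  rw [ValuationSubring.mem_nonunits_iff] at hx ⊢
  have hy' : O.valuation y ≤ 1 := (ValuationSubring.valuation_le_one_iff O _).mpr hy
  rw [map_mul]
  exact mul_lt_one_of_lt_of_le hx hy'

theorem nonunits_mem (O : ValuationSubring F) {x : F} (hx : x ∈ O.nonunits) : x ∈ O := by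
  rw [ValuationSubring.mem_nonunits_iff] at hx
  exact (ValuationSubring.valuation_le_one_iff O _).mp hx.le

theorem algebraMap_mem_nonunits_iff (P : Place K F) (b : K) :
    algebraMap K F b ∈ P.toValuationSubring.nonunits ↔ b = 0 := by
  constructor
  · intro h
    by_contra hb
    rcases (mem_nonunits_iff_inv _ _).mp h with h0 | h1
    · exact hb ((map_eq_zero _).mp h0)
    · apply h1
      rw [← map_inv₀]
      exact P.algebraMap_mem' _
  · rintro rfl
    simp [ValuationSubring.mem_nonunits_iff]

theorem hasValue_mem {P : Place K F} {f : F} {b : K} (h : HasValue P f b) :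
    f ∈ P.toValuationSubring := by
  have h1 := nonunits_mem _ h
  have h2 := P.algebraMap_mem' b
  have := P.toValuationSubring.add_mem _ _ h1 h2
  simpa using this

theorem hasValue_unique {P : Place K F} {f : F} {b₁ b₂ : K} (h₁ : HasValue P f b₁)
    (h₂ : HasValue P f b₂) : b₁ = b₂ := by
  have h := nonunits_sub_mem _ h₂ h₁
  have e : f - algebraMap K F b₂ - (f - algebraMap K F b₁) = algebraMap K F (b₁ - b₂) := by
    rw [map_sub]; ring
  rw [e, algebraMap_mem_nonunits_iff] at h
  exact sub_eq_zero.mp h

theorem hasValue_const (P : Place K F) (b : K) : HasValue P (algebraMap K F b) b := by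
  unfold HasValue
  rw [sub_self]
  simp [ValuationSubring.mem_nonunits_iff]

theorem hasValue_add {P : Place K F} {f g : F} {a b : K} (hf : HasValue P f a)
    (hg : HasValue P g b) : HasValue P (f + g) (a + b) := by
  unfold HasValue at *
  have := nonunits_add_mem _ hf hg
  have e : f + g - algebraMap K F (a + b) = f - algebraMap K F a + (g - algebraMap K F b) := by
    rw [map_add]; ring
  rwa [e]

theorem hasValue_mul {P : Place K F} {f g : F} {a b : K} (hf : HasValue P f a)
    (hg : HasValue P g b) : HasValue P (f * g) (a * b) := by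
  have hfm := hasValue_mem hf
  unfold HasValue at *
  have h1 := nonunits_mul_mem _ hg hfm
  have h2 := nonunits_mul_mem _ hf (P.algebraMap_mem' b)
  have := nonunits_add_mem _ h1 h2
  have e : f * g - algebraMap K F (a * b)
      = (g - algebraMap K F b) * f + (f - algebraMap K F a) * algebraMap K F b := by
    rw [map_mul]; ring
  rwa [e]

theorem hasValue_pow {P : Place K F} {f : F} {a : K} (hf : HasValue P f a) (n : ℕ) :
    HasValue P (f ^ n) (a ^ n) := by
  induction n with
  | zero => simpa using hasValue_const P (1 : K)
  | succ n ih => rw [pow_succ, pow_succ]; exact hasValue_mul ih hf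

theorem hasValue_sum {P : Place K F} {ι : Type*} (s : Finset ι) (f : ι → F) (a : ι → K)
    (h : ∀ i ∈ s, HasValue P (f i) (a i)) : HasValue P (∑ i ∈ s, f i) (∑ i ∈ s, a i) := by
  classical
  induction s using Finset.induction_on with
  | empty => simpa using hasValue_const P (0 : K)
  | insert i s hi ih =>
    rw [Finset.sum_insert hi, Finset.sum_insert hi]
    exact hasValue_add (h i (Finset.mem_insert_self _ _))
      (ih fun j hj => h j (Finset.mem_insert_of_mem hj))

theorem hasValue_zero_eq {P : Place K F} {b : K} (h : HasValue P (0 : F) b) : b = 0 :=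
  hasValue_unique h (by simpa using hasValue_const P (0 : K))

/-- the value of an inverse -/
theorem hasValue_inv {P : Place K F} {f : F} {a : K} (hf : HasValue P f a) (ha : a ≠ 0) :
    HasValue P f⁻¹ a⁻¹ := by
  have hfm := hasValue_mem hf
  have hf0 : f ≠ 0 := by
    rintro rfl
    exact ha (hasValue_zero_eq hf)
  -- `f` is a unit of the valuation ring
  have hfu : f ∉ P.toValuationSubring.nonunits := by
    intro hn
    have : HasValue P f 0 := by
      unfold HasValue; simpa using hn
    exact ha (hasValue_unique hf this)
  have hinv : f⁻¹ ∈ P.toValuationSubring := by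
    by_contra hcon
    exact hfu ((mem_nonunits_iff_inv _ _).mpr (Or.inr hcon))
  unfold HasValue at *
  have e : f⁻¹ - algebraMap K F a⁻¹
      = -((f - algebraMap K F a) * (f⁻¹ * algebraMap K F a⁻¹)) := by
    have ha' : algebraMap K F a ≠ 0 := (map_ne_zero _).mpr ha
    rw [map_inv₀]
    field_simp
    ring
  rw [e]
  have h1 := nonunits_mul_mem _ hf (P.toValuationSubring.mul_mem _ _ hinv (P.algebraMap_mem' a⁻¹))
  have h2 : (0 : F) ∈ P.toValuationSubring.nonunits := by
    simp [ValuationSubring.mem_nonunits_iff]
  have := nonunits_sub_mem _ h2 h1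
  simpa using this

/-- transport of values along a semilinear automorphism -/
theorem hasValue_smul (g : SemilinearAut K F) {P : Place K F} {f : F} {b : K}
    (h : HasValue P f b) : HasValue (g • P) (g • f) (SemilinearAut.baseAut g b) := by
  unfold HasValue at *
  rw [SemilinearAut.smul_toValuationSubring]
  have e : g • f - algebraMap K F (SemilinearAut.baseAut g b) = g • (f - algebraMap K F b) := by
    rw [smul_sub, SemilinearAut.smul_algebraMap]
  rw [e]
  rcases (mem_nonunits_iff_inv _ _).mp h with h0 | h1
  · rw [h0, smul_zero]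
    simp [ValuationSubring.mem_nonunits_iff]
  · refine (mem_nonunits_iff_inv _ _).mpr (Or.inr ?_)
    intro hcon
    apply h1
    rw [ValuationSubring.mem_pointwise_smul_iff_inv_smul_mem] at hcon
    have e2 : g⁻¹ • (g • (f - algebraMap K F b))⁻¹ = (f - algebraMap K F b)⁻¹ := by
      rw [← smul_inv'', inv_smul_smul]
    rwa [e2] at hcon

end generic

end Fermat.Agent.S37.H817
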