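import Mathlib

/-!
# Idempotent lifting and uniqueness modulo powers of an element (elementary form)

Pure commutative algebra, used by the connectedness argument (`Connected.lean`).
-/

set_option autoImplicit false

namespace Fermat.Agent.S37.H817

variable {B : Type*} [CommRing B]

/-- Newton step for idempotents: `a ↦ 3a² - 2a³`. -/
def newtonIdem (a : B) : B := 3 * a ^ 2 - 2 * a ^ 3

theorem newtonIdem_sq_sub (a : B) :
    newtonIdem a ^ 2 - newtonIdem a = (a ^ 2 - a) ^ 2 * (4 * a ^ 2 - 4 * a - 3) := by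
  unfold newtonIdem; ring

theorem newtonIdem_sub (a : B) : newtonIdem a - a = (a ^ 2 - a) * (1 - 2 * a) := by
  unfold newtonIdem; ring

/-- If `e` is idempotent modulo `w`, then for every `n` there is `a ≡ e mod w` which is
idempotent modulo `w ^ n`. -/
theorem exists_idem_lift (w e : B) (he : w ∣ e ^ 2 - e) (n : ℕ) :
    ∃ a : B, w ∣ a - e ∧ w ^ n ∣ a ^ 2 - a := by
  induction n with
  | zero => exact ⟨e, by simp, by simp⟩
  | succ n ih =>
    obtain ⟨a, ha1, ha2⟩ := ih
    rcases Nat.eq_zero_or_pos n with hn | hn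
    · subst hn
      refine ⟨e, by simp, by simpa using he⟩
    · refine ⟨newtonIdem a, ?_, ?_⟩
      · have h1 : w ∣ a ^ 2 - a := dvd_trans (dvd_pow_self w hn.ne') ha2
        have h2 : newtonIdem a - e = (newtonIdem a - a) + (a - e) := by ring
        rw [h2, newtonIdem_sub]
        exact dvd_add (Dvd.dvd.mul_right h1 _) ha1
      · rw [newtonIdem_sq_sub]
        have h3 : w ^ (n + 1) ∣ (a ^ 2 - a) ^ 2 := by
          have h4 : w ^ (n + 1) ∣ w ^ (2 * n) := pow_dvd_pow w (by omega)
          refine dvd_trans h4 ?_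
          rw [pow_mul']
          exact pow_dvd_pow_of_dvd ha2 2
        exact Dvd.dvd.mul_right h3 _

/-- Two elements which are idempotent modulo `w ^ n` and congruent modulo `w` are congruent
modulo `w ^ n`. -/
theorem idem_unique (w a b : B) (n : ℕ) (ha : w ^ n ∣ a ^ 2 - a) (hb : w ^ n ∣ b ^ 2 - b)
    (hab : w ∣ a - b) : w ^ n ∣ a - b := by
  have key : w ^ n ∣ (a - b) ^ 3 - (a - b) := by
    have e : (a - b) ^ 3 - (a - b) =
        (a ^ 2 - a) * (a - 3 * b + 1) + (b ^ 2 - b) * (3 * a - b - 1) := by ring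
    rw [e]
    exact dvd_add (Dvd.dvd.mul_right ha _) (Dvd.dvd.mul_right hb _)
  have aux : ∀ j : ℕ, j ≤ n → w ^ j ∣ a - b := by
    intro j
    induction j with
    | zero => intro _; simp
    | succ j ih =>
      intro hj
      rcases Nat.eq_zero_or_pos j with h0 | hpos
      · subst h0; simpa using hab
      · have h1 : w ^ j ∣ a - b := ih (by omega)
        have h2 : w ^ (j + 1) ∣ (a - b) ^ 3 := by
          have h3 : w ^ (j + 1) ∣ w ^ (3 * j) := pow_dvd_pow w (by omega)
          refine dvd_trans h3 ?_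
          rw [pow_mul']
          exact pow_dvd_pow_of_dvd h1 3
        have h4 : w ^ (j + 1) ∣ (a - b) ^ 3 - (a - b) :=
          dvd_trans (pow_dvd_pow w hj) key
        have h5 : a - b = (a - b) ^ 3 - ((a - b) ^ 3 - (a - b)) := by ring
        rw [h5]
        exact dvd_sub h2 h4
  exact aux n le_rfl

end Fermat.Agent.S37.H817
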