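import Mathlib

/-!
# Bounded torsion in a Noetherian quotient, and the Čech `H¹` of a two-chart cover

* `exists_torsion_bound`: if `M ⧸ S` is a Noetherian `R`-module and `w : R`, then there is `c`
  such that `w ^ n • m ∈ S` implies `w ^ c • m ∈ S`.
-/

set_option autoImplicit false

namespace Fermat.Agent.S37.H817

section module

variable {R M : Type*} [CommRing R] [AddCommGroup M] [Module R M]

/-- In a Noetherian module the `w`-power torsion is killed by a fixed power of `w`. -/
theorem exists_torsion_bound_zero (N : Type*) [AddCommGroup N] [Module R N] [IsNoetherian R N]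
    (w : R) : ∃ c : ℕ, ∀ (n : ℕ) (x : N), w ^ n • x = 0 → w ^ c • x = 0 := by
  let f : ℕ →o Submodule R N :=
    { toFun := fun n => LinearMap.ker ((w ^ n) • (LinearMap.id : N →ₗ[R] N))
      monotone' := by
        intro a b hab x hx
        simp only [LinearMap.mem_ker, LinearMap.smul_apply, LinearMap.id_coe, id_eq] at hx ⊢
        obtain ⟨k, rfl⟩ := Nat.exists_eq_add_of_le hab
        rw [pow_add, mul_comm, mul_smul, hx, smul_zero] }
  have hf : ∀ n x, x ∈ f n ↔ w ^ n • x = 0 := by
    intro n x
    change x ∈ LinearMap.ker ((w ^ n) • (LinearMap.id : N →ₗ[R] N)) ↔ _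
    simp only [LinearMap.mem_ker, LinearMap.smul_apply, LinearMap.id_coe, id_eq]
  obtain ⟨c, hc⟩ := (monotone_stabilizes_iff_noetherian (R := R) (M := N)).mpr inferInstance f
  refine ⟨c, fun n x hx => ?_⟩
  rcases le_total n c with h | h
  · obtain ⟨k, rfl⟩ := Nat.exists_eq_add_of_le h
    rw [pow_add, mul_comm, mul_smul, hx, smul_zero]
  · have hx' : x ∈ f n := (hf n x).mpr hx
    rw [← hc n h] at hx'
    exact (hf c x).mp hx'

/-- If `M ⧸ S` is Noetherian then the `w`-power torsion of `M` modulo `S` is bounded. -/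
theorem exists_torsion_bound (S : Submodule R M) [IsNoetherian R (M ⧸ S)] (w : R) :
    ∃ c : ℕ, ∀ (n : ℕ) (m : M), w ^ n • m ∈ S → w ^ c • m ∈ S := by
  obtain ⟨c, hc⟩ := exists_torsion_bound_zero (R := R) (M ⧸ S) w
  refine ⟨c, fun n m hm => ?_⟩
  have h1 : w ^ n • (S.mkQ m) = 0 := by
    rw [← map_smul, Submodule.mkQ_apply, Submodule.Quotient.mk_eq_zero]
    exact hm
  have h2 := hc n _ h1
  rw [← map_smul, Submodule.mkQ_apply, Submodule.Quotient.mk_eq_zero] at h2
  exact h2

end module

end Fermat.Agent.S37.H817
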